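/-
S28 / (A-θ): q-expansion of the normalized derivative `D f = (2πi)⁻¹ f'`.
Main result: for `f` holomorphic on `ℍ`, `1`-periodic and bounded at `i∞`,
`(qExpansion 1 (D f)).coeff m = m * (qExpansion 1 f).coeff m`.
-/
import Mathlib

set_option autoImplicit false

open UpperHalfPlane hiding I
open Complex Filter Function Topology
open scoped Real Manifold MatrixGroups ModularForm
open Derivative

noncomputable section

namespace Fermat.Agent.S28

local notation "𝕢" => Periodic.qParam

/-- "Good" functions on the upper half plane: `1`-periodic, holomorphic, bounded at `i∞`. -/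
structure Th327Good (f : ℍ → ℂ) : Prop where
  per : Periodic (f ∘ ofComplex) 1
  holo : MDiff f
  bdd : IsBoundedAtImInfty f

namespace Th327Good

variable {f g : ℍ → ℂ}

lemma differentiableOn_ball (hf : Th327Good f) :
    DifferentiableOn ℂ (cuspFunction 1 f) (Metric.ball 0 1) :=
  differentiableOn_cuspFunction_ball one_pos hf.per hf.holo hf.bdd

lemma analyticAt_zero (hf : Th327Good f) : AnalyticAt ℂ (cuspFunction 1 f) 0 :=
  analyticAt_cuspFunction_zero one_pos hf.per hf.holo hf.bdd

lemma analyticAt (hf : Th327Good f) {z : ℂ} (hz : ‖z‖ < 1) : AnalyticAt ℂ (cuspFunction 1 f) z :=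
  hf.differentiableOn_ball.analyticAt
    (Metric.isOpen_ball.mem_nhds (by simpa using hz))

lemma hasSum (hf : Th327Good f) (τ : ℍ) :
    HasSum (fun m : ℕ ↦ (qExpansion 1 f).coeff m • 𝕢 1 τ ^ m) (f τ) :=
  hasSum_qExpansion one_pos hf.per hf.holo hf.bdd τ

lemma eq_cusp (hf : Th327Good f) (τ : ℍ) : cuspFunction 1 f (𝕢 1 τ) = f τ :=
  eq_cuspFunction τ one_ne_zero hf.per

end Th327Good

lemma th327_hasDerivAt_qParam (w : ℂ) :
    HasDerivAt (𝕢 1) (2 * π * I * 𝕢 1 w) w := by
  have h1 : HasDerivAt (fun z : ℂ => 2 * π * I * z / (1 : ℝ)) (2 * π * I) w := by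
    have := ((hasDerivAt_id w).const_mul (2 * π * I)).div_const ((1 : ℝ) : ℂ)
    simpa using this
  have h2 : HasDerivAt (fun z : ℂ => cexp (2 * π * I * z / (1 : ℝ)))
      (cexp (2 * π * I * w / (1 : ℝ)) * (2 * π * I)) w := h1.cexp
  have h4 : 2 * π * I * 𝕢 1 w = cexp (2 * π * I * w / (1 : ℝ)) * (2 * π * I) := by
    simp only [Periodic.qParam]; ring
  rw [h4]
  exact h2

lemma th327_deriv_comp_ofComplex {f : ℍ → ℂ} (hf : Th327Good f) {w : ℂ} (hw : 0 < w.im) :
    deriv (f ∘ ofComplex) w = deriv (cuspFunction 1 f) (𝕢 1 w) * (2 * π * I * 𝕢 1 w) := by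
  have h1 : (f ∘ ofComplex) =ᶠ[𝓝 w] (cuspFunction 1 f ∘ 𝕢 1) := by
    filter_upwards [isOpen_upperHalfPlaneSet.mem_nhds hw] with z hz
    simp only [Function.comp_apply]
    rw [ofComplex_apply_of_im_pos hz]
    exact (hf.eq_cusp ⟨z, hz⟩).symm
  rw [h1.deriv_eq]
  have hF : DifferentiableAt ℂ (cuspFunction 1 f) (𝕢 1 w) :=
    differentiableAt_cuspFunction one_pos hf.per hf.holo hf.bdd
      (Periodic.norm_qParam_lt_one one_pos hw)
  exact (hF.hasDerivAt.comp w (th327_hasDerivAt_qParam w)).deriv

/-- `D f (τ) = q · F'(q)` where `F` is the cusp function of `f`. -/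
lemma th327_D_apply {f : ℍ → ℂ} (hf : Th327Good f) (τ : ℍ) :
    D f τ = 𝕢 1 τ * deriv (cuspFunction 1 f) (𝕢 1 τ) := by
  rw [normalizedDerivOfComplex, th327_deriv_comp_ofComplex hf τ.im_pos]
  have : (2 * π * I : ℂ) ≠ 0 := two_pi_I_ne_zero
  field_simp


lemma th327_comp_invQParam {f : ℍ → ℂ} (hf : Th327Good f) {z : ℂ} (hz : ‖z‖ < 1) (hz0 : z ≠ 0) :
    ((D f) ∘ ofComplex) (Periodic.invQParam 1 z) = z * deriv (cuspFunction 1 f) z := by
  have him := Periodic.im_invQParam_pos_of_norm_lt_one one_pos hz hz0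
  simp only [Function.comp_apply]
  rw [ofComplex_apply_of_im_pos him, th327_D_apply hf]
  rw [Periodic.qParam_right_inv one_ne_zero hz0]

lemma th327_continuousAt_deriv_cusp {f : ℍ → ℂ} (hf : Th327Good f) :
    ContinuousAt (deriv (cuspFunction 1 f)) 0 :=
  hf.analyticAt_zero.deriv.continuousAt

/-- The cusp function of `D f` is `z ↦ z · F'(z)` on the unit disc. -/
lemma th327_cuspFunction_D {f : ℍ → ℂ} (hf : Th327Good f) {z : ℂ} (hz : ‖z‖ < 1) :
    cuspFunction 1 (D f) z = z * deriv (cuspFunction 1 f) z := by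
  rcases eq_or_ne z 0 with rfl | hz0
  · rw [zero_mul]
    show Periodic.cuspFunction 1 ((D f) ∘ ofComplex) 0 = 0
    rw [Periodic.cuspFunction, Function.update_self]
    apply Tendsto.limUnder_eq
    have h1 : Tendsto (fun z : ℂ => z * deriv (cuspFunction 1 f) z) (𝓝[≠] 0) (𝓝 0) := by
      have h2 : Tendsto (fun z : ℂ => z * deriv (cuspFunction 1 f) z) (𝓝 0)
          (𝓝 (0 * deriv (cuspFunction 1 f) 0)) :=
        (continuousAt_id.mul (th327_continuousAt_deriv_cusp hf)).tendsto
      rw [zero_mul] at h2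
      exact h2.mono_left nhdsWithin_le_nhds
    refine h1.congr' ?_
    have hball : Metric.ball (0 : ℂ) 1 ∈ 𝓝 (0 : ℂ) := Metric.ball_mem_nhds _ one_pos
    filter_upwards [nhdsWithin_le_nhds hball, self_mem_nhdsWithin] with w hw hw0
    exact (th327_comp_invQParam hf (by simpa using hw) hw0).symm
  · show Periodic.cuspFunction 1 ((D f) ∘ ofComplex) z = _
    rw [Periodic.cuspFunction_eq_of_nonzero 1 _ hz0]
    exact th327_comp_invQParam hf hz hz0

lemma th327_cuspFunction_D_eventuallyEq {f : ℍ → ℂ} (hf : Th327Good f) :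
    cuspFunction 1 (D f) =ᶠ[𝓝 0] fun z => z * deriv (cuspFunction 1 f) z := by
  have hball : Metric.ball (0 : ℂ) 1 ∈ 𝓝 (0 : ℂ) := Metric.ball_mem_nhds _ one_pos
  filter_upwards [hball] with w hw
  exact th327_cuspFunction_D hf (by simpa using hw)

lemma th327_analyticAt_cuspFunction_D {f : ℍ → ℂ} (hf : Th327Good f) :
    AnalyticAt ℂ (cuspFunction 1 (D f)) 0 := by
  have h : AnalyticAt ℂ (fun z : ℂ => z * deriv (cuspFunction 1 f) z) 0 :=
    analyticAt_id.mul hf.analyticAt_zero.deriv
  exact h.congr (th327_cuspFunction_D_eventuallyEq hf).symm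

/-- The `q`-expansion of `D f` is `θ` of the `q`-expansion of `f`. -/
theorem th327_qExpansion_D_coeff {f : ℍ → ℂ} (hf : Th327Good f) (m : ℕ) :
    (qExpansion 1 (D f)).coeff m = (m : ℂ) * (qExpansion 1 f).coeff m := by
  rw [qExpansion_coeff, qExpansion_coeff,
    (th327_cuspFunction_D_eventuallyEq hf).iteratedDeriv_eq m]
  have hF := hf.analyticAt_zero
  have hmul : (fun z : ℂ => z * deriv (cuspFunction 1 f) z) = id * deriv (cuspFunction 1 f) := rfl
  rw [hmul, iteratedDeriv_mul (n := m) contDiffAt_id hF.deriv.contDiffAt]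
  rcases m with _ | m
  · simp
  · rw [Finset.sum_eq_single 1]
    · simp only [iteratedDeriv_one, Nat.choose_one_right, Nat.add_sub_cancel]
      rw [show deriv (id : ℂ → ℂ) 0 = 1 by simp, iteratedDeriv_succ' (n := m)]
      rw [Nat.factorial_succ]
      push_cast
      have : ((m : ℂ) + 1) ≠ 0 := by exact_mod_cast Nat.succ_ne_zero m
      have h2 : ((m.factorial : ℕ) : ℂ) ≠ 0 := by exact_mod_cast Nat.factorial_ne_zero m
      field_simp
    · intro i _ hi
      have : iteratedDeriv i (id : ℂ → ℂ) 0 = 0 := by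
        rw [iteratedDeriv_id]
        rcases i with _ | _ | i
        · simp
        · exact absurd rfl hi
        · simp
      rw [this]; simp
    · intro h
      exact absurd (Finset.mem_range.mpr (by omega)) h


/-! ### Closure properties of `Th327Good` -/

namespace Th327Good

variable {f g : ℍ → ℂ}

lemma of_modularForm {k : ℤ} (f : ModularForm 𝒮ℒ k) : Th327Good (f : ℍ → ℂ) where
  per := SlashInvariantFormClass.periodic_comp_ofComplex f one_mem_strictPeriods_SL
  holo := ModularFormClass.holo f
  bdd := ModularFormClass.bdd_at_infty f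

lemma of_cuspForm {k : ℤ} (f : CuspForm 𝒮ℒ k) : Th327Good (f : ℍ → ℂ) where
  per := SlashInvariantFormClass.periodic_comp_ofComplex f one_mem_strictPeriods_SL
  holo := ModularFormClass.holo f
  bdd := ModularFormClass.bdd_at_infty f

lemma mul (hf : Th327Good f) (hg : Th327Good g) : Th327Good (f * g) where
  per := fun z => by
    have h1 := hf.per z
    have h2 := hg.per z
    simp only [Function.comp_apply, Pi.mul_apply] at h1 h2 ⊢
    rw [h1, h2]
  holo := hf.holo.mul hg.holo
  bdd := hf.bdd.mul hg.bdd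

lemma add (hf : Th327Good f) (hg : Th327Good g) : Th327Good (f + g) where
  per := fun z => by
    have h1 := hf.per z
    have h2 := hg.per z
    simp only [Function.comp_apply, Pi.add_apply] at h1 h2 ⊢
    rw [h1, h2]
  holo := hf.holo.add hg.holo
  bdd := hf.bdd.add hg.bdd

lemma neg (hf : Th327Good f) : Th327Good (-f) where
  per := fun z => by
    have h1 := hf.per z
    simp only [Function.comp_apply, Pi.neg_apply] at h1 ⊢
    rw [h1]
  holo := hf.holo.neg
  bdd := hf.bdd.neg

lemma sub (hf : Th327Good f) (hg : Th327Good g) : Th327Good (f - g) := by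
  rw [sub_eq_add_neg]; exact hf.add hg.neg

lemma smul (c : ℂ) (hf : Th327Good f) : Th327Good (c • f) where
  per := fun z => by
    have h1 := hf.per z
    simp only [Function.comp_apply, Pi.smul_apply] at h1 ⊢
    rw [h1]
  holo := hf.holo.const_smul c
  bdd := hf.bdd.const_smul_left c

lemma pow (hf : Th327Good f) (n : ℕ) : Th327Good (f ^ n) := by
  induction n with
  | zero =>
    rw [pow_zero]
    exact ⟨fun z => rfl, mdifferentiable_const, Filter.const_boundedAtFilter _ _⟩
  | succ n ih => rw [pow_succ]; exact ih.mul hf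

/-- The normalized derivative of a good function is good (and even zero at `i∞`). -/
lemma deriv (hf : Th327Good f) : Th327Good (D f) where
  per := fun z => by
    simp only [Function.comp_apply]
    by_cases hz : 0 < z.im
    · have hz1 : 0 < (z + (1 : ℂ)).im := by simpa using hz
      rw [ofComplex_apply_of_im_pos hz1, ofComplex_apply_of_im_pos hz]
      simp only [normalizedDerivOfComplex]
      congr 1
      show _root_.deriv (f ∘ ofComplex) (z + (1 : ℂ)) = _root_.deriv (f ∘ ofComplex) z
      rw [← deriv_comp_add_const (f ∘ ofComplex) (1 : ℂ) z]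
      congr 1
      funext w
      exact hf.per w
    · have hz' : z.im ≤ 0 := not_lt.mp hz
      have hz1 : (z + (1 : ℂ)).im ≤ 0 := by simpa using hz'
      rw [ofComplex_apply_eq_of_im_nonpos hz1 hz']
  holo := normalizedDerivOfComplex_mdifferentiable hf.holo
  bdd := by
    have h0 : Tendsto (fun z : ℂ => z * _root_.deriv (cuspFunction 1 f) z) (𝓝 0)
        (𝓝 (0 * _root_.deriv (cuspFunction 1 f) 0)) :=
      (continuousAt_id.mul (th327_continuousAt_deriv_cusp hf)).tendsto
    have h1 : Tendsto (D f) atImInfty (𝓝 (0 * _root_.deriv (cuspFunction 1 f) 0)) := by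
      have h2 := h0.comp (qParam_tendsto_atImInfty (h := 1) one_pos)
      refine h2.congr fun τ => ?_
      simp only [Function.comp_apply]
      exact (th327_D_apply hf τ).symm
    exact h1.isBigO_one ℝ

lemma analyticAt_zero_D (hf : Th327Good f) : AnalyticAt ℂ (cuspFunction 1 (D f)) 0 :=
  th327_analyticAt_cuspFunction_D hf

end Th327Good

/-! ### `θ = q d/dq` on power series, and `q`-expansions of good functions -/

/-- `θ = q d/dq` on power series: multiplies the coefficient of `qⁿ` by `n`. -/
def th327_thetaP {R : Type*} [Semiring R] (p : PowerSeries R) : PowerSeries R :=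
  PowerSeries.mk fun n => (n : R) * p.coeff n

@[simp] lemma th327_thetaP_coeff {R : Type*} [Semiring R] (p : PowerSeries R) (n : ℕ) :
    (th327_thetaP p).coeff n = (n : R) * p.coeff n := by
  simp [th327_thetaP]

namespace Th327Good

variable {f g : ℍ → ℂ}

lemma qExpansion_D (hf : Th327Good f) : qExpansion 1 (D f) = th327_thetaP (qExpansion 1 f) := by
  ext m
  rw [th327_thetaP_coeff, th327_qExpansion_D_coeff hf]

lemma qExpansion_mul (hf : Th327Good f) (hg : Th327Good g) :
    qExpansion 1 (f * g) = qExpansion 1 f * qExpansion 1 g :=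
  UpperHalfPlane.qExpansion_mul hf.analyticAt_zero hg.analyticAt_zero

lemma qExpansion_add (hf : Th327Good f) (hg : Th327Good g) :
    qExpansion 1 (f + g) = qExpansion 1 f + qExpansion 1 g :=
  UpperHalfPlane.qExpansion_add hf.analyticAt_zero hg.analyticAt_zero

lemma qExpansion_sub (hf : Th327Good f) (hg : Th327Good g) :
    qExpansion 1 (f - g) = qExpansion 1 f - qExpansion 1 g :=
  UpperHalfPlane.qExpansion_sub hf.analyticAt_zero hg.analyticAt_zero

lemma qExpansion_smul (c : ℂ) (hf : Th327Good f) :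
    qExpansion 1 (c • f) = c • qExpansion 1 f :=
  UpperHalfPlane.qExpansion_smul hf.analyticAt_zero c

lemma qExpansion_pow (hf : Th327Good f) (n : ℕ) :
    qExpansion 1 (f ^ n) = qExpansion 1 f ^ n := by
  induction n with
  | zero => rw [pow_zero, pow_zero]; exact UpperHalfPlane.qExpansion_one 1
  | succ n ih => rw [pow_succ, pow_succ, (hf.pow n).qExpansion_mul hf, ih]

lemma qExpansion_eq_zero_iff (hf : Th327Good f) : qExpansion 1 f = 0 ↔ f = 0 :=
  UpperHalfPlane.qExpansion_eq_zero_iff one_pos hf.per hf.holo hf.bdd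

end Th327Good

end Fermat.Agent.S28
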