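/-
S28 / (A-θ): the analytic identity `3 Δ · D E₄ - E₄ · D Δ + E₆ · Δ = 0` on `ℍ`
(a Rankin–Cohen bracket computation: the left side is a level-one modular form of
weight 18 whose `q`-expansion vanishes to order `≥ 2`, hence zero by the Sturm bound).
-/
import Mathlib
import Fermat.Agent.S28.Theta.DerivQExp

set_option autoImplicit false

open UpperHalfPlane hiding I
open Complex Filter Function Topology
open scoped Real Manifold MatrixGroups ModularForm
open Derivative ModularForm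

noncomputable section

namespace Fermat.Agent.S28

local notation "𝕢" => Periodic.qParam
local notation "Δ" => ModularForm.discriminant

/-- Pointwise transformation law of `D F` for a weight-`k` slash-invariant `F`. -/
lemma th327_D_smul_apply {k : ℤ} {F : ℍ → ℂ} (hF : MDiff F) (γ : SL(2, ℤ))
    (hinv : F ∣[k] γ = F) (z : ℍ) :
    D F (γ • z) = denom γ z ^ (k + 2) *
      (D F z + (k : ℂ) * (2 * π * I)⁻¹ * ((γ 1 0 : ℂ) / denom γ z) * F z) := by
  have h := congrFun (normalizedDerivOfComplex_SL_slash (k := k) hF (γ := γ)) z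
  rw [hinv] at h
  simp only [Pi.sub_apply, ModularForm.SL_slash_apply] at h
  have hd : denom γ z ≠ 0 := denom_ne_zero γ z
  have hd2 : denom γ z ^ (k + 2) ≠ 0 := zpow_ne_zero _ hd
  rw [zpow_neg] at h
  have h' : D F (γ • z) * (denom γ z ^ (k + 2))⁻¹ =
      D F z + (k : ℂ) * (2 * π * I)⁻¹ * ((γ 1 0 : ℂ) / denom γ z) * F z := by
    rw [h]; ring
  field_simp at h' ⊢
  linear_combination h'

/-- The weight-18 combination `3 Δ · D E₄ - E₄ · D Δ + E₆ · Δ`. -/
def th327_H : ℍ → ℂ :=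
  (3 : ℂ) • (Δ * D (E₄ : ℍ → ℂ)) - (E₄ : ℍ → ℂ) * D Δ + (E₆ : ℍ → ℂ) * Δ

lemma th327_H_apply (z : ℍ) :
    th327_H z = 3 * (Δ z * D (E₄ : ℍ → ℂ) z) - E₄ z * D Δ z + E₆ z * Δ z := rfl

lemma th327_good_E₄ : Th327Good (E₄ : ℍ → ℂ) := Th327Good.of_modularForm E₄
lemma th327_good_E₆ : Th327Good (E₆ : ℍ → ℂ) := Th327Good.of_modularForm E₆
lemma th327_good_Δ : Th327Good Δ := Th327Good.of_cuspForm CuspForm.discriminant

lemma th327_good_H : Th327Good th327_H :=
  (((th327_good_Δ.mul th327_good_E₄.deriv).smul 3).sub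
    (th327_good_E₄.mul th327_good_Δ.deriv)).add (th327_good_E₆.mul th327_good_Δ)

lemma th327_slash_E₄ (γ : SL(2, ℤ)) : (E₄ : ℍ → ℂ) ∣[(4 : ℤ)] γ = E₄ := by
  have hγ : (γ : GL (Fin 2) ℝ) ∈ 𝒮ℒ := ⟨γ, rfl⟩
  have := SlashInvariantForm.slash_action_eqn E₄ _ hγ
  simpa [ModularForm.SL_slash] using this

lemma th327_slash_E₆ (γ : SL(2, ℤ)) : (E₆ : ℍ → ℂ) ∣[(6 : ℤ)] γ = E₆ := by
  have hγ : (γ : GL (Fin 2) ℝ) ∈ 𝒮ℒ := ⟨γ, rfl⟩
  have := SlashInvariantForm.slash_action_eqn E₆ _ hγ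
  simpa [ModularForm.SL_slash] using this

lemma th327_slash_Δ (γ : SL(2, ℤ)) : Δ ∣[(12 : ℤ)] γ = Δ := by
  have hγ : (γ : GL (Fin 2) ℝ) ∈ 𝒮ℒ := ⟨γ, rfl⟩
  have := SlashInvariantForm.slash_action_eqn CuspForm.discriminant _ hγ
  simpa [ModularForm.SL_slash] using this

lemma th327_smul_eq {k : ℤ} {F : ℍ → ℂ} (γ : SL(2, ℤ)) (hinv : F ∣[k] γ = F) (z : ℍ) :
    F (γ • z) = denom γ z ^ k * F z := by
  have h := congrFun hinv z
  rw [ModularForm.SL_slash_apply, zpow_neg] at h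
  have hd : denom γ z ^ k ≠ 0 := zpow_ne_zero _ (denom_ne_zero γ z)
  field_simp at h
  linear_combination h

lemma th327_H_smul (γ : SL(2, ℤ)) (z : ℍ) :
    th327_H (γ • z) = denom γ z ^ (18 : ℤ) * th327_H z := by
  have hd : denom γ z ≠ 0 := denom_ne_zero γ z
  have e4 := th327_smul_eq γ (th327_slash_E₄ γ) z
  have e6 := th327_smul_eq γ (th327_slash_E₆ γ) z
  have eΔ := th327_smul_eq γ (th327_slash_Δ γ) z
  have d4 := th327_D_smul_apply th327_good_E₄.holo γ (th327_slash_E₄ γ) z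
  have dΔ := th327_D_smul_apply th327_good_Δ.holo γ (th327_slash_Δ γ) z
  rw [th327_H_apply, th327_H_apply, e4, e6, eΔ, d4, dΔ]
  have z4 : denom γ z ^ (4 : ℤ) = denom γ z ^ 4 := by norm_cast
  have z6 : denom γ z ^ (6 : ℤ) = denom γ z ^ 6 := by norm_cast
  have z12 : denom γ z ^ (12 : ℤ) = denom γ z ^ 12 := by norm_cast
  have z42 : denom γ z ^ ((4 : ℤ) + 2) = denom γ z ^ 6 := by norm_cast
  have z122 : denom γ z ^ ((12 : ℤ) + 2) = denom γ z ^ 14 := by norm_cast
  have z18 : denom γ z ^ (18 : ℤ) = denom γ z ^ 18 := by norm_cast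
  rw [z4, z6, z12, z42, z122, z18]
  push_cast
  field_simp
  ring

lemma th327_H_slash (γ : SL(2, ℤ)) : th327_H ∣[(18 : ℤ)] γ = th327_H := by
  ext z
  rw [ModularForm.SL_slash_apply, th327_H_smul γ z, zpow_neg]
  have hd : denom γ z ^ (18 : ℤ) ≠ 0 := zpow_ne_zero _ (denom_ne_zero γ z)
  field_simp

/-- `3 Δ · D E₄ - E₄ · D Δ + E₆ · Δ` as a modular form of weight 18 and level one. -/
def th327_Hform : ModularForm 𝒮ℒ 18 where
  toFun := th327_H
  slash_action_eq' := fun _ ⟨γ, hγ⟩ ↦ hγ ▸ th327_H_slash γ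
  holo' := th327_good_H.holo
  bdd_at_cusps' {c} hc := by
    rw [Subgroup.IsArithmetic.isCusp_iff_isCusp_SL2Z] at hc
    rw [OnePoint.isBoundedAt_iff_forall_SL2Z hc]
    intro γ _
    rw [th327_H_slash γ]
    exact th327_good_H.bdd

lemma th327_Hform_coe : (th327_Hform : ℍ → ℂ) = th327_H := rfl

/-! ### `q`-expansion of `H` and the Sturm bound -/

lemma th327_qExpansion_H :
    qExpansion 1 th327_H =
      (3 : ℂ) • (qExpansion 1 Δ * th327_thetaP (qExpansion 1 E₄))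
        - qExpansion 1 E₄ * th327_thetaP (qExpansion 1 Δ)
        + qExpansion 1 E₆ * qExpansion 1 Δ := by
  unfold th327_H
  rw [(((th327_good_Δ.mul th327_good_E₄.deriv).smul 3).sub
      (th327_good_E₄.mul th327_good_Δ.deriv)).qExpansion_add (th327_good_E₆.mul th327_good_Δ),
    ((th327_good_Δ.mul th327_good_E₄.deriv).smul 3).qExpansion_sub
      (th327_good_E₄.mul th327_good_Δ.deriv),
    (th327_good_Δ.mul th327_good_E₄.deriv).qExpansion_smul 3,
    th327_good_Δ.qExpansion_mul th327_good_E₄.deriv,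
    th327_good_E₄.qExpansion_mul th327_good_Δ.deriv,
    th327_good_E₆.qExpansion_mul th327_good_Δ,
    th327_good_E₄.qExpansion_D, th327_good_Δ.qExpansion_D]

lemma th327_coeff_zero_Δ : (qExpansion 1 Δ).coeff 0 = 0 := by
  simpa using CuspFormClass.qExpansion_coeff_zero CuspForm.discriminant one_pos
    one_mem_strictPeriods_SL

lemma th327_coeff_one_Δ : (qExpansion 1 Δ).coeff 1 = 1 := discriminant_qExpansion_coeff_one

lemma th327_coeff_zero_E₄ : (qExpansion 1 E₄).coeff 0 = 1 :=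
  EisensteinSeries.E_qExpansion_coeff_zero _ ⟨2, rfl⟩

lemma th327_coeff_zero_E₆ : (qExpansion 1 E₆).coeff 0 = 1 :=
  EisensteinSeries.E_qExpansion_coeff_zero _ ⟨3, rfl⟩

lemma th327_qExpansion_H_coeff_zero : (qExpansion 1 th327_H).coeff 0 = 0 := by
  rw [th327_qExpansion_H]
  simp [PowerSeries.coeff_mul, -PowerSeries.coeff_zero_eq_constantCoeff, th327_coeff_zero_Δ]

lemma th327_qExpansion_H_coeff_one : (qExpansion 1 th327_H).coeff 1 = 0 := by
  rw [th327_qExpansion_H]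
  simp [PowerSeries.coeff_mul, Finset.Nat.antidiagonal_succ,
    -PowerSeries.coeff_zero_eq_constantCoeff, th327_coeff_zero_Δ, th327_coeff_one_Δ,
    th327_coeff_zero_E₄, th327_coeff_zero_E₆]

theorem th327_H_eq_zero : th327_H = 0 := by
  have h2 : ((2 : ℕ) : ℕ∞) ≤ (qExpansion 1 th327_Hform).order := by
    apply PowerSeries.nat_le_order
    intro i hi
    rw [th327_Hform_coe]
    interval_cases i
    · exact th327_qExpansion_H_coeff_zero
    · exact th327_qExpansion_H_coeff_one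
  have h1 : ((((18 : ℤ).toNat / 12 : ℕ)) : ℕ∞) < (qExpansion 1 th327_Hform).order := by
    refine lt_of_lt_of_le ?_ h2
    have h18 : (18 : ℤ).toNat / 12 = 1 := by decide
    rw [h18]
    exact_mod_cast (by norm_num : (1 : ℕ) < 2)
  have := sturm_bound_levelOne (f := th327_Hform) h1
  rw [← th327_Hform_coe, this]
  rfl

/-- Formal Ramanujan-type identity for the `q`-expansions of `E₄, E₆, Δ` (over `ℂ`). -/
theorem th327_bracket_qExpansion :
    (3 : ℂ) • (qExpansion 1 Δ * th327_thetaP (qExpansion 1 E₄))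
        - qExpansion 1 E₄ * th327_thetaP (qExpansion 1 Δ)
        + qExpansion 1 E₆ * qExpansion 1 Δ = 0 := by
  rw [← th327_qExpansion_H, th327_H_eq_zero]
  exact UpperHalfPlane.qExpansion_zero 1

/-- `E₄³ - E₆² = 1728 Δ` for `q`-expansions. -/
theorem th327_cube_sub_sq_qExpansion :
    qExpansion 1 E₄ ^ 3 - qExpansion 1 E₆ ^ 2 = (1728 : ℂ) • qExpansion 1 Δ := by
  have h : (E₄ : ℍ → ℂ) ^ 3 - (E₆ : ℍ → ℂ) ^ 2 = (1728 : ℂ) • Δ := by
    funext z
    have := discriminant_eq_E₄_cube_sub_E₆_sq z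
    simp only [Pi.sub_apply, Pi.pow_apply, Pi.smul_apply, smul_eq_mul]
    rw [this]; ring
  rw [← th327_good_E₄.qExpansion_pow, ← th327_good_E₆.qExpansion_pow,
    ← (th327_good_E₄.pow 3).qExpansion_sub (th327_good_E₆.pow 2), h,
    th327_good_Δ.qExpansion_smul]

end Fermat.Agent.S28
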