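/-
S28 / (A-θ): the formal identity `(θ j)⁶ = Δ · j⁴ · (j - 1728)³` in `ℤ((q))`.

Analytic input: `Theta/Bracket.lean` (Rankin–Cohen bracket of `Δ` and `E₄`, Sturm bound) and
Mathlib's `Δ = (E₄³ - E₆²)/1728`; bridges to the formal series of the Prelude from
`H685` (helper685); Leibniz rule for `θ` from `H88/Theta.lean` (helper88).
-/
import Mathlib
import Fermat.Agent.S28.Defs
import Fermat.Agent.S28.H88.Theta
import Fermat.Agent.S28.H685.JFun
import Fermat.Agent.S28.Theta.Bracket

set_option autoImplicit false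

open UpperHalfPlane hiding I
open Complex Filter Function Topology
open scoped Real Manifold MatrixGroups ModularForm
open Derivative ModularForm ModularCurve HahnSeries

noncomputable section

namespace Fermat.Agent.S28

local notation "𝕢" => Periodic.qParam
local notation "Δ" => ModularForm.discriminant

/-! ### Bridges -/

lemma th327_qExpansion_Δ :
    qExpansion 1 Δ = PowerSeries.X * H685.dedekindEtaUnitC := by
  have h1 : H685.HasQExp 1 Δ (PowerSeries.X * H685.dedekindEtaUnitC) :=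
    (H685.HasQExp.X.mul H685.hasQExp_dedekindEtaUnitC).congr_fun
      fun τ => (H685.discriminant_eq_etaC τ).symm
  have h2 : H685.HasQExp 1 Δ (qExpansion 1 Δ) := fun τ => by
    have := th327_good_Δ.hasSum τ
    simpa [smul_eq_mul] using this
  exact H685.HasQExp.unique one_pos h2 h1

lemma th327_qExpansion_E₄ :
    qExpansion 1 E₄ = eisenstein4.map (Int.castRingHom ℂ) := H685.qExpansion_E4_eq

/-! ### `θ` on power series versus Laurent series -/

lemma th327_thetaL_ofPowerSeries {R : Type*} [CommRing R] (P : PowerSeries R) :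
    thetaL R (HahnSeries.ofPowerSeries ℤ R P) = HahnSeries.ofPowerSeries ℤ R (th327_thetaP P) := by
  ext n
  rw [thetaL_coeff]
  rcases le_or_gt 0 n with hn | hn
  · lift n to ℕ using hn
    rw [HahnSeries.ofPowerSeries_apply_coeff, HahnSeries.ofPowerSeries_apply_coeff, th327_thetaP_coeff]
    push_cast
    rfl
  · rw [ofPowerSeries_coeff_of_neg _ hn, ofPowerSeries_coeff_of_neg _ hn, mul_zero]

/-! ### The identity over `ℂ` -/

/-- `a = E₄`, `b = E₆`, `c = Δ` as Laurent series over `ℂ`. -/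
def th327_a : LaurentSeries ℂ := HahnSeries.ofPowerSeries ℤ ℂ (qExpansion 1 E₄)
def th327_b : LaurentSeries ℂ := HahnSeries.ofPowerSeries ℤ ℂ (qExpansion 1 E₆)

lemma th327_ofPowerSeries_Δ :
    HahnSeries.ofPowerSeries ℤ ℂ (qExpansion 1 Δ) = deltaL ℂ := by
  rw [th327_qExpansion_Δ, map_mul, HahnSeries.ofPowerSeries_X, deltaL]
  rfl

lemma th327_bracket_laurent :
    3 * (deltaL ℂ * thetaL ℂ th327_a) - th327_a * thetaL ℂ (deltaL ℂ)
      + th327_b * deltaL ℂ = 0 := by
  have h := congrArg (HahnSeries.ofPowerSeries ℤ ℂ) th327_bracket_qExpansion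
  rw [map_zero, map_add, map_sub, map_mul, map_mul, Algebra.smul_def, map_mul, map_mul,
    ← th327_thetaL_ofPowerSeries, ← th327_thetaL_ofPowerSeries, th327_ofPowerSeries_Δ] at h
  rw [← h]
  simp only [th327_a, th327_b]
  congr 3
  rw [map_ofNat, map_ofNat]

lemma th327_cube_sub_sq_laurent :
    th327_a ^ 3 - th327_b ^ 2 = 1728 * deltaL ℂ := by
  have h := congrArg (HahnSeries.ofPowerSeries ℤ ℂ) th327_cube_sub_sq_qExpansion
  rw [map_sub, map_pow, map_pow, Algebra.smul_def, map_mul, th327_ofPowerSeries_Δ] at h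
  rw [show th327_a ^ 3 - th327_b ^ 2 = _ from h]
  congr 1
  rw [map_ofNat, map_ofNat]

lemma th327_j_mul_delta : jqModC ℂ * deltaL ℂ = th327_a ^ 3 := by
  rw [th327_a, th327_qExpansion_E₄, jqModC, deltaL, mul_mul_mul_comm,
    HahnSeries.single_mul_single, ← map_mul, ← map_pow]
  have h1 : (jNum.map (Int.castRingHom ℂ)) * (dedekindEtaUnit.map (Int.castRingHom ℂ)) =
      (eisenstein4.map (Int.castRingHom ℂ)) ^ 3 := by
    rw [← map_mul, ← map_pow, jNum, mul_assoc, mul_comm dedekindEtaUnitInv,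
      dedekindEtaUnit_mul_inv, mul_one]
  rw [h1]
  simp

lemma th327_deltaL_cancel {x y : LaurentSeries ℂ} (h : x * deltaL ℂ = y * deltaL ℂ) : x = y := by
  have := congrArg (· * deltaInvL ℂ) h
  simpa [mul_assoc, h88_deltaL_mul_deltaInvL] using this

lemma th327_thetaL_j_mul_delta :
    thetaL ℂ (jqModC ℂ) * deltaL ℂ = - (th327_a ^ 2 * th327_b) := by
  have h1 := congrArg (thetaL ℂ) th327_j_mul_delta
  rw [h88_thetaL_mul, h88_thetaL_pow th327_a 2] at h1
  have h2 := th327_bracket_laurent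
  have h3 := th327_j_mul_delta
  apply th327_deltaL_cancel
  push_cast at h1
  linear_combination (deltaL ℂ) * h1 - (thetaL ℂ (deltaL ℂ)) * h3 + th327_a ^ 2 * h2

lemma th327_deltaL_pow_cancel (n : ℕ) {x y : LaurentSeries ℂ}
    (h : x * deltaL ℂ ^ n = y * deltaL ℂ ^ n) : x = y := by
  induction n with
  | zero => simpa using h
  | succ n ih =>
    apply ih
    apply th327_deltaL_cancel
    rw [mul_assoc, mul_assoc, ← pow_succ]
    exact h

/-- The `θ`-identity over `ℂ`. -/
theorem th327_theta_identity_complex :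
    (thetaL ℂ (jqModC ℂ)) ^ 6 = deltaL ℂ * (jqModC ℂ) ^ 4 * (jqModC ℂ - 1728) ^ 3 := by
  have h1 := th327_thetaL_j_mul_delta
  have h2 := th327_cube_sub_sq_laurent
  have h3 := th327_j_mul_delta
  apply th327_deltaL_pow_cancel 6
  have e1 : (thetaL ℂ (jqModC ℂ)) ^ 6 * deltaL ℂ ^ 6 = (th327_a ^ 2 * th327_b) ^ 6 := by
    rw [← mul_pow, h1]; ring
  have e2 : (deltaL ℂ * (jqModC ℂ) ^ 4 * (jqModC ℂ - 1728) ^ 3) * deltaL ℂ ^ 6 =
      (jqModC ℂ * deltaL ℂ) ^ 4 * (jqModC ℂ * deltaL ℂ - 1728 * deltaL ℂ) ^ 3 := by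
    ring
  have e3 : th327_a ^ 3 - 1728 * deltaL ℂ = th327_b ^ 2 := by
    linear_combination h2
  rw [e1, e2, h3, e3]
  ring

/-! ### Descent to `ℤ` -/

lemma th327_coeffMap_intCast_injective :
    Function.Injective (coeffMap (Int.castRingHom ℂ)) := by
  intro x y h
  ext n
  have := congrArg (fun z => z.coeff n) h
  simp only [coeffMap_coeff, eq_intCast] at this
  exact_mod_cast this

/-- **(A-θ)** `(θ j)⁶ = Δ · j⁴ · (j - 1728)³` in `ℤ((q))`.
(Same statement as the stub `theta_identity` of the captain skeleton.) -/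
theorem th327_theta_identity :
    (thetaL ℤ (jqModC ℤ)) ^ 6 = deltaL ℤ * (jqModC ℤ) ^ 4 * (jqModC ℤ - 1728) ^ 3 := by
  apply th327_coeffMap_intCast_injective
  rw [map_pow, h88_coeffMap_thetaL, map_mul, map_mul, map_pow, map_pow, map_sub,
    coeffMap_jqModC, h88_coeffMap_deltaL, map_ofNat]
  exact th327_theta_identity_complex

/-- The `θ`-identity over an arbitrary commutative ring. -/
theorem th327_theta_identity_ring (R : Type*) [CommRing R] :
    (thetaL R (jqModC R)) ^ 6 = deltaL R * (jqModC R) ^ 4 * (jqModC R - 1728) ^ 3 := by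
  have h := congrArg (coeffMap (Int.castRingHom R)) th327_theta_identity
  rw [map_pow, h88_coeffMap_thetaL, map_mul, map_mul, map_pow, map_pow, map_sub,
    coeffMap_jqModC, h88_coeffMap_deltaL, map_ofNat] at h
  exact h

end Fermat.Agent.S28
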